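import Fermat.Agent.S19.DIV.Main
import Fermat.Agent.S19.ND.Contract

/-!
# S19, block DIV: the contract of block ND
-/

set_option autoImplicit false

namespace Fermat.Agent.S19.DIV

universe u v

theorem divStatement : Fermat.Agent.S19.ND.DivStatement.{u, v} :=
  fun K F _ _ _ _ _ _ ℓ hℓ x => divisible K F ℓ hℓ x

end Fermat.Agent.S19.DIV
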