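import Fermat.Agent.S19.DIV.Group
import Fermat.Agent.S27.AZ.Main
import Fermat.Agent.S27.Assembly

/-!
# S19, block DIV: `Pic⁰` is `ℓ`-divisible over `𝔽̄_p`, `ℓ ≠ p`
-/

set_option autoImplicit false

namespace Fermat.Agent.S19.DIV

open Fermat.Agent.S27 Fermat.Agent.S27.AZ AlgebraicCurve

universe u v

/-- every class of degree `0` is torsion: it lies in the finite group of `φ^m`-fixed classes
(`AZData.exists_pow_fix_cl0`, `AZData.finite_fix_cl0_pow`; the fixed points of the endomorphism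
`A.phi0 ^ m` form an `AddSubgroup`, use `isOfFinAddOrder_of_finite` / `addOrderOf_pos`). -/
theorem AZ_exists_nsmul_eq_zero {S : Type u} (A : AZData S) (y : A.Cl0) :
    ∃ N : ℕ, 0 < N ∧ N • y = 0 := by
  obtain ⟨m, hm, hy⟩ := A.exists_pow_fix_cl0 y
  let H : AddSubgroup A.Cl0 :=
    { carrier := {c | (A.phi0 ^ m) c = c}
      zero_mem' := map_zero _
      add_mem' := fun {a b} ha hb => by
        show (A.phi0 ^ m) (a + b) = a + b
        rw [map_add, ha, hb]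
      neg_mem' := fun {a} ha => by
        show (A.phi0 ^ m) (-a) = -a
        rw [map_neg, ha] }
  have hfin : Finite H := (A.finite_fix_cl0_pow m hm).to_subtype
  have h1 : IsOfFinAddOrder (⟨y, hy⟩ : H) := isOfFinAddOrder_of_finite _
  refine ⟨addOrderOf (⟨y, hy⟩ : H), h1.addOrderOf_pos, ?_⟩
  have h2 := addOrderOf_nsmul_eq_zero (⟨y, hy⟩ : H)
  exact congrArg (Subtype.val) h2

/-- `AZData.card_torsion` + `exists_smul_eq_of_torsion`. -/
theorem AZ_divisible {S : Type u} (A : AZData S) (ℓ : ℕ) (hℓ : ℓ.Prime) (hq : ¬ ℓ ∣ A.q)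
    (y : A.Cl0) : ∃ x : A.Cl0, ℓ • x = y :=
  exists_smul_eq_of_torsion ℓ (2 * A.g) hℓ (fun k => A.card_torsion ℓ hℓ hq k) y
    (AZ_exists_nsmul_eq_zero A y)

/-- flat form. -/
theorem AZ_divisible_flat {S : Type u} (A : AZData S) (ℓ : ℕ) (hℓ : ℓ.Prime) (hq : ¬ ℓ ∣ A.q)
    (D : S →₀ ℤ) (hD : degHom S D = 0) :
    ∃ D' : S →₀ ℤ, degHom S D' = 0 ∧ ℓ • D' - D ∈ A.Prin := by
  have hmem : (QuotientAddGroup.mk D : A.Cl) ∈ A.Cl0 := by
    rw [AddMonoidHom.mem_ker, AZData.degCl_mk, hD]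
  obtain ⟨⟨x, hx⟩, hxy⟩ := AZ_divisible A ℓ hℓ hq ⟨_, hmem⟩
  induction x using QuotientAddGroup.induction_on with
  | H D' =>
    refine ⟨D', ?_, ?_⟩
    · rw [AddMonoidHom.mem_ker, AZData.degCl_mk] at hx
      exact hx
    · have h1 : (QuotientAddGroup.mk (ℓ • D') : A.Cl) = QuotientAddGroup.mk D :=
        congrArg Subtype.val hxy
      rw [QuotientAddGroup.eq_iff_sub_mem] at h1
      exact h1

/-- translation to `Pic0` (`degHom_eq_degree`, `Pic0.mk_surjective`,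
`QuotientAddGroup.eq_iff_sub_mem`). -/
theorem pic0_divisible_of_AZ {k : Type u} {F : Type v} [Field k] [Field F] [Algebra k F]
    (h : BaseHyp k F) (A : AZData (Place k F)) (hA : A.Prin = Divisor.principal)
    (ℓ : ℕ) (hℓ : ℓ.Prime) (hq : ¬ ℓ ∣ A.q) (x : Pic0 k F) : ∃ y : Pic0 k F, ℓ • y = x := by
  obtain ⟨⟨D, hD⟩, rfl⟩ := Pic0.mk_surjective x
  have hD0 : degHom (Place k F) D = 0 := by
    rw [degHom_eq_degree h]; exact hD
  obtain ⟨D', hD', hprin⟩ := AZ_divisible_flat A ℓ hℓ hq D hD0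
  have hD'0 : D' ∈ Divisor.degZero (K := k) (F := F) := by
    rw [Divisor.mem_degZero, ← degHom_eq_degree h]; exact hD'
  refine ⟨Pic0.mk ⟨D', hD'0⟩, ?_⟩
  show (QuotientAddGroup.mk (ℓ • (⟨D', hD'0⟩ : Divisor.degZero (K := k) (F := F))) : Pic0 k F)
    = QuotientAddGroup.mk ⟨D, hD⟩
  rw [QuotientAddGroup.eq_iff_sub_mem, AddSubgroup.mem_addSubgroupOf]
  rw [hA] at hprin
  exact hprin

end Fermat.Agent.S19.DIV
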