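import Fermat.Agent.S19.DIV.PowOf

/-!
# S19, block DIV: dictionary `DivCount s n c ↔ every class is an n-th power`

Copy-adapt `S27/E/Count.lean` and `S27/E/Main.lean`.
-/

set_option autoImplicit false

namespace Fermat.Agent.S19.DIV

open Fermat.Agent.S27 Fermat.Agent.S27.E AlgebraicCurve

universe u v

section Alg

variable {s : Shape} {k : Type u} [Field k] {R : Type v} [CommRing R] [Algebra k R]
  [IsDedekindDomain R] (A : AlgModel s k R) {d N : ℕ}

/-- `exists_cls_eq` + `exists_rep` (as in `count_exists_rep`) + `isPowOf_iff` with `d = 2 g`,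
`N = divN s n = 4 g (n + 2) + 1`. -/
theorem divCount_iff (hA : A.RhoMul) (n : ℕ) :
    DivCount s n A.c ↔ ∀ a : ClassGroup R, ∃ b : ClassGroup R, b ^ n = a := by
  have hNdef : divN s n = 4 * (s.genus * n) + 8 * s.genus + 1 := by unfold divN; ring
  have hnd : n * (2 * s.genus) = 2 * (s.genus * n) := by ring
  have hrep : ∀ a : ClassGroup R, ∃ r : Rep s k (2 * s.genus),
      r.IsRep A.c (divN s n) ∧ A.cls (A.idl r) = a := by
    intro a
    obtain ⟨I, hI, hc, hcls⟩ := A.exists_cls_eq hA a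
    obtain ⟨r, hr, hrI⟩ := A.exists_rep (d := 2 * s.genus) (N := divN s n) hA hI hc (by omega)
    exact ⟨r, hr, by rw [hrI, hcls]⟩
  have hpow : ∀ {r r₁ : Rep s k (2 * s.genus)}, r.IsRep A.c (divN s n) →
      r₁.IsRep A.c (divN s n) →
      (IsPowOf A.c (divN s n) n r r₁ ↔ A.cls (A.idl r₁) ^ n = A.cls (A.idl r)) := fun h h₁ =>
    isPowOf_iff A hA h h₁ n (by
      rw [hnd, hNdef]
      have h1 : max (max (2 * (s.genus * n)) (2 * s.genus)) (2 * s.genus)
          ≤ 2 * (s.genus * n) + 2 * s.genus :=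
        max_le (max_le (by omega) (by omega)) (by omega)
      omega)
  constructor
  · intro h a
    obtain ⟨r, hr, hra⟩ := hrep a
    obtain ⟨r₁, hr₁, hp⟩ := h r hr
    exact ⟨A.cls (A.idl r₁), by rw [(hpow hr hr₁).1 hp, hra]⟩
  · intro h r hr
    obtain ⟨b, hb⟩ := h (A.cls (A.idl r))
    obtain ⟨r₁, hr₁, hrb⟩ := hrep b
    exact ⟨r₁, hr₁, (hpow hr hr₁).2 (by rw [hrb, hb])⟩

end Alg

/-- The analogue of `StmtE` (`stmtE_of_API`): use `nonempty_pic0_equiv_classGroup`. -/
theorem divCount_iff_pic0 (hAPI : StmtAPI.{u, v}) (k : Type u) (F : Type v) [Field k] [Field F]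
    [Algebra k F] (s : Shape) (h : CurveHyp k F) (M : OnePointModel k F s) (n : ℕ) :
    DivCount s n M.c ↔ ∀ x : Pic0 k F, ∃ y : Pic0 k F, n • y = x := by
  obtain ⟨R, _, _, _, _, _, _, A, hc, hA, hreg, hinf⟩ := hAPI k F s h M
  rw [← hc, divCount_iff A hA n]
  obtain ⟨e⟩ := nonempty_pic0_equiv_classGroup (R := R) h.toBaseHyp M.inf hreg hinf
  constructor
  · intro H x
    obtain ⟨b, hb⟩ := H (Additive.toMul (e x))
    refine ⟨e.symm (Additive.ofMul b), ?_⟩
    apply e.injective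
    rw [map_nsmul, AddEquiv.apply_symm_apply, ← ofMul_pow, hb]
    rfl
  · intro H a
    obtain ⟨y, hy⟩ := H (e.symm (Additive.ofMul a))
    refine ⟨Additive.toMul (e y), ?_⟩
    rw [← toMul_nsmul, ← map_nsmul, hy, AddEquiv.apply_symm_apply]
    rfl

end Fermat.Agent.S19.DIV
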