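import Fermat.Agent.S19.DIV.FO
import Fermat.Agent.S19.DIV.Dict
import Fermat.Agent.S19.DIV.AZ
import Fermat.Agent.S27.RR.Main
import Fermat.Agent.S27.K.Main
import Fermat.Agent.S27.API.Main
import Fermat.Agent.S27.M4.Main
import Fermat.Agent.S27.Frob.Main
import Fermat.Agent.Lib.RR.Bridge27b

/-!
# S19, block DIV: main theorem
-/

set_option autoImplicit false

namespace Fermat.Agent.S19.DIV

open Fermat.Agent.S27 AlgebraicCurve

universe u v

/-- the sentence holds over `𝔽̄_p`, `p ≠ ℓ`. -/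
theorem divGoal_kappa (p : ℕ) (hp : p.Prime) (κ : Type u) [Field κ] [IsAlgClosed κ] [CharP κ p]
    (hκ : ∀ a : κ, ∃ n : ℕ, 0 < n ∧ a ^ (p ^ n) = a)
    (ℓ : ℕ) (hℓ : ℓ.Prime) (hne : ℓ ≠ p) (s : Shape) : DivGoal s ℓ κ := by
  intro c hc
  obtain ⟨F, _, _, hF, M, rfl⟩ := M4.stmtM4 κ s c hc
  obtain ⟨A, hAP, -, r, hAq⟩ := Frob.stmtFrob RR.stmtRR p κ F s hp hκ hF M
  rw [divCount_iff_pic0 (API.stmtAPI RR.stmtRR) κ F s hF M ℓ]
  exact pic0_divisible_of_AZ hF.toBaseHyp A hAP ℓ hℓ (by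
    rw [hAq]
    intro hd
    exact hne ((Nat.prime_dvd_prime_iff_eq hℓ hp).mp (hℓ.dvd_of_dvd_pow hd)))

/-- `Pic⁰` is `ℓ`-divisible (under the hypothesis `CurveHyp` of S27). -/
theorem divisible_of_curveHyp (K : Type u) (F : Type v) [Field K] [Field F] [Algebra K F]
    [IsAlgClosed K] [CharZero K] (hF : CurveHyp K F) (ℓ : ℕ) (hℓ : ℓ.Prime) (x : Pic0 K F) :
    ∃ y : Pic0 K F, ℓ • y = x := by
  obtain ⟨s, ⟨M⟩⟩ := Fermat.Agent.S27.K.stmtK2 RR.stmtRR K F hF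
  have hgoal : DivGoal s ℓ K := by
    apply divGoal_transfer s ℓ K
    have hsub : {p : Nat.Primes | (p : ℕ) ≠ ℓ} ⊆
        {p : Nat.Primes | ∃ (κ : Type u) (_ : Field κ), IsAlgClosed κ ∧ CharP κ p ∧
          DivGoal s ℓ κ} := by
      intro p hp
      obtain ⟨κ, _, h1, h2, h3⟩ := exists_kappa.{u} (p : ℕ) p.2
      exact ⟨κ, _, h1, h2, divGoal_kappa p p.2 κ h3 ℓ hℓ (fun h => hp h.symm) s⟩
    refine Set.Infinite.mono hsub ?_
    have : {p : Nat.Primes | (p : ℕ) ≠ ℓ} = ({⟨ℓ, hℓ⟩} : Set Nat.Primes)ᶜ := by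
      ext p
      constructor
      · intro hp hmem
        exact hp (congrArg Subtype.val (Set.mem_singleton_iff.mp hmem))
      · intro hp hmem
        exact hp (Set.mem_singleton_iff.mpr (Subtype.ext hmem))
    rw [this]
    exact (Set.finite_singleton _).infinite_compl
  have hcount := hgoal M.c (E.stmtK3_of_API (API.stmtAPI RR.stmtRR) K F s hF M)
  rw [divCount_iff_pic0 (API.stmtAPI RR.stmtRR) K F s hF M ℓ] at hcount
  exact hcount x

/-- **Main theorem of block DIV**: `Pic⁰(F)` is `ℓ`-divisible, `F/K` a function field (`IsFF` of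
`Lib/RR`), `K` algebraically closed of characteristic `0`. -/
theorem divisible (K : Type u) (F : Type v) [Field K] [Field F] [Algebra K F]
    [IsAlgClosed K] [CharZero K] [Fermat.Agent.Lib.RR.IsFF K F] (ℓ : ℕ) (hℓ : ℓ.Prime)
    (x : Pic0 K F) : ∃ y : Pic0 K F, ℓ • y = x :=
  divisible_of_curveHyp K F
    (Fermat.Agent.Lib.RR.curveHyp_of_isFF Fermat.Agent.Lib.RR.residue_surjective) ℓ hℓ x

end Fermat.Agent.S19.DIV
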