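import Fermat.Agent.S27.Shape

/-!
# S19, block DIV: `Pic⁰` of a function field over an algebraically closed field of characteristic `0`
is `ℓ`-divisible.  Definitions.

Same method as S27: the statement "every ideal class of the one point model `R_c` is an `n`-th power"
is a first order sentence `DivGoal s n` in the structure constants `c`; it holds over `𝔽̄_p`
(`Pic⁰` is a torsion group with `#Pic⁰[ℓ^k] = ℓ^(2gk)`), hence in characteristic `0` (Lefschetz
principle, `S27/FO`).
-/

set_option autoImplicit false

namespace Fermat.Agent.S19.DIV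

open Fermat.Agent.S27

universe u

/-- bound for the `x`-degrees of the elements quantified over. -/
def divN (s : Shape) (n : ℕ) : ℕ := 4 * s.genus * (n + 2) + 1

variable {s : Shape} {k : Type u} [Field k] {d : ℕ}

/-- the class of the ideal coded by `r` is the `n`-th power of the class of the ideal coded by
`r₁`:  `p = r₁^n`, `r'` an ideal with `r r' = t₁` and `p r' = t₂` both principal. -/
def IsPowOf (c : Table s k) (N n : ℕ) (r r₁ : Rep s k d) : Prop :=
  ∃ (p : Rep s k (n * d)) (r' : Rep s k (2 * s.genus)) (t₁ : Rep s k (d + 2 * s.genus))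
    (t₂ : Rep s k (n * d + 2 * s.genus)),
    p.IsRep c N ∧ r'.IsRep c N ∧ t₁.IsRep c N ∧ t₂.IsRep c N ∧
      Rep.PowLE N n r₁ p ∧ Rep.MulLE N r r' t₁ ∧ t₁.Princ N ∧ Rep.MulLE N p r' t₂ ∧ t₂.Princ N

/-- every ideal class is an `n`-th power. -/
def DivCount (s : Shape) (n : ℕ) {k : Type u} [Field k] (c : Table s k) : Prop :=
  ∀ r : Rep s k (2 * s.genus), r.IsRep c (divN s n) →
    ∃ r₁ : Rep s k (2 * s.genus), r₁.IsRep c (divN s n) ∧ IsPowOf c (divN s n) n r r₁

/-- The first-order sentence. -/
def DivGoal (s : Shape) (n : ℕ) (k : Type u) [Field k] : Prop :=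
  ∀ c : Table s k, Valid s c → DivCount s n c

end Fermat.Agent.S19.DIV
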