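import Fermat.Agent.S19.DIV.Defs
import Fermat.Agent.S27.FO.Main

/-!
# S19, block DIV: the Lefschetz principle for `DivGoal s n`
-/

set_option autoImplicit false

namespace Fermat.Agent.S19.DIV

open Fermat.Agent.S27 Fermat.Agent.S27.FO

universe u

variable {α : Type} {s : Shape} {d : ℕ}

theorem udef_isPowOf {c : ∀ (k : Type u) [Field k], (α → k) → Table s k}
    {r r₁ : ∀ (k : Type u) [Field k], (α → k) → Rep s k d} (hc : UTable α c) (h : URep α r)
    (h₁ : URep α r₁) (N n : ℕ) :
    UDef α (fun k _ v => IsPowOf (c k v) N n (r k v) (r₁ k v)) := by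
  unfold IsPowOf
  refine UDef.exists_rep ?_
  refine UDef.exists_rep ?_
  refine UDef.exists_rep ?_
  refine UDef.exists_rep ?_
  exact (udef_isRep hc.weaken.weaken.weaken.weaken urep_dec.weaken.weaken.weaken N).and
    ((udef_isRep hc.weaken.weaken.weaken.weaken urep_dec.weaken.weaken N).and
    ((udef_isRep hc.weaken.weaken.weaken.weaken urep_dec.weaken N).and
    ((udef_isRep hc.weaken.weaken.weaken.weaken urep_dec N).and
    ((udef_powLE h₁.weaken.weaken.weaken.weaken urep_dec.weaken.weaken.weaken N n).and
    ((udef_mulLE h.weaken.weaken.weaken.weaken urep_dec.weaken.weaken urep_dec.weaken N).and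
    ((udef_princ urep_dec.weaken N).and
    ((udef_mulLE urep_dec.weaken.weaken.weaken urep_dec.weaken.weaken urep_dec N).and
    (udef_princ urep_dec N))))))))

theorem udef_divCount {c : ∀ (k : Type u) [Field k], (α → k) → Table s k} (hc : UTable α c)
    (n : ℕ) : UDef α (fun k _ v => DivCount s n (c k v)) := by
  unfold DivCount
  refine UDef.forall_rep ?_
  refine UDef.imp (udef_isRep hc.weaken urep_dec _) ?_
  refine UDef.exists_rep ?_
  exact (udef_isRep hc.weaken.weaken urep_dec _).and
    (udef_isPowOf hc.weaken.weaken urep_dec.weaken urep_dec _ _)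

theorem udef_divGoal (s : Shape) (n : ℕ) : UDef.{u} α (fun k _ _ => DivGoal s n k) := by
  unfold DivGoal
  refine UDef.forall_table ?_
  exact UDef.imp (udef_valid utable_dec) (udef_divCount utable_dec n)

/-- The Lefschetz principle for `DivGoal`. -/
theorem divGoal_transfer (s : Shape) (n : ℕ) (K : Type u) [Field K] [IsAlgClosed K] [CharZero K]
    (hinf : {p : Nat.Primes | ∃ (κ : Type u) (_ : Field κ), IsAlgClosed κ ∧ CharP κ p ∧
      DivGoal s n κ}.Infinite) : DivGoal s n K :=
  transfer (udef_divGoal s n) K hinf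

end Fermat.Agent.S19.DIV
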