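import Mathlib

/-!
# S19, block DIV: a torsion group with `#G[ℓ^k] = ℓ^(r k)` for all `k` is `ℓ`-divisible

Let `y` have finite order `N = ℓ^a N'`, `ℓ ∤ N'`.  Bezout: `1 = u ℓ^a + w N'`, `y = u ℓ^a y + w N' y`.
* `y' = u ℓ^a y` is killed by `N'`; `1 = u' ℓ + w' N'` gives `y' = ℓ (u' y')`.
* `y'' = w N' y ∈ G[ℓ^a]`.  The map `ℓ : G[ℓ^(a+1)] → G[ℓ^a]` has kernel `G[ℓ]`, so its image has
  `ℓ^(r(a+1)) / ℓ^r = ℓ^(r a) = #G[ℓ^a]` elements: it is onto.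
-/

set_option autoImplicit false

namespace Fermat.Agent.S19.DIV

/-- multiplication by `ℓ` maps `G[ℓ^(a+1)]` onto `G[ℓ^a]`. -/
theorem exists_smul_eq_of_card {G : Type*} [AddCommGroup G] (ℓ r : ℕ) (hℓ : ℓ.Prime)
    (hcard : ∀ k : ℕ, Nat.card {x : G // ℓ ^ k • x = 0} = ℓ ^ (r * k)) (a : ℕ) (y : G)
    (hy : ℓ ^ a • y = 0) : ∃ x : G, ℓ • x = y := by
  let tor : ℕ → AddSubgroup G := fun k => (nsmulAddMonoidHom (ℓ ^ k) : G →+ G).ker
  have hmem : ∀ k x, x ∈ tor k ↔ ℓ ^ k • x = 0 := fun k x => Iff.rfl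
  have hct : ∀ k, Nat.card (tor k) = ℓ ^ (r * k) := fun k => hcard k
  have hpos : ∀ k, ℓ ^ (r * k) ≠ 0 := fun k => pow_ne_zero _ hℓ.ne_zero
  have hfin : ∀ k, Finite (tor k) := fun k =>
    Nat.finite_of_card_ne_zero (by rw [hct]; exact hpos k)
  let f : tor (a + 1) →+ G := (nsmulAddMonoidHom ℓ : G →+ G).comp (tor (a + 1)).subtype
  have hfapp : ∀ x : tor (a + 1), f x = ℓ • (x : G) := fun x => rfl
  have hle : f.range ≤ tor a := by
    rintro _ ⟨x, rfl⟩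
    rw [hmem, hfapp, ← mul_smul, ← pow_succ]
    exact x.2
  have hker : Nat.card f.ker = ℓ ^ r := by
    have e : f.ker ≃ {x : G // ℓ ^ 1 • x = 0} :=
      { toFun := fun x => ⟨(x : tor (a + 1)), by
          have := x.2
          rw [AddMonoidHom.mem_ker, hfapp] at this
          rwa [pow_one]⟩
        invFun := fun z => ⟨⟨z.1, by
          rw [hmem, pow_succ, mul_smul]
          have h0 : ℓ • z.1 = 0 := (congrArg (· • z.1) (pow_one ℓ)).symm.trans z.2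
          rw [h0, smul_zero]⟩, by
          rw [AddMonoidHom.mem_ker, hfapp]
          exact (congrArg (· • z.1) (pow_one ℓ)).symm.trans z.2⟩
        left_inv := fun x => rfl
        right_inv := fun z => rfl }
    rw [Nat.card_congr e, hcard 1, mul_one]
  have h1 := AddSubgroup.card_mul_index f.ker
  rw [AddSubgroup.index_ker, hker, hct] at h1
  have hrange : Nat.card f.range = ℓ ^ (r * a) := by
    have h2 : ℓ ^ (r * (a + 1)) = ℓ ^ r * ℓ ^ (r * a) := by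
      rw [← pow_add]; congr 1; ring
    rw [h2] at h1
    exact Nat.eq_of_mul_eq_mul_left (pow_pos hℓ.pos r) h1
  have heq : f.range = tor a := by
    have := hfin a
    apply AddSubgroup.eq_of_le_of_card_ge hle
    rw [hrange, hct]
  have hy' : y ∈ f.range := by
    rw [heq]
    exact hy
  obtain ⟨x, hx⟩ := hy'
  exact ⟨x, hx⟩

theorem exists_smul_eq_of_torsion {G : Type*} [AddCommGroup G] (ℓ r : ℕ) (hℓ : ℓ.Prime)
    (hcard : ∀ k : ℕ, Nat.card {x : G // ℓ ^ k • x = 0} = ℓ ^ (r * k)) (y : G)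
    (hy : ∃ N : ℕ, 0 < N ∧ N • y = 0) : ∃ x : G, ℓ • x = y := by
  obtain ⟨N, hN, hNy⟩ := hy
  obtain ⟨a, c, hc, rfl⟩ := Nat.exists_eq_pow_mul_and_not_dvd hN.ne' ℓ hℓ.ne_one
  obtain ⟨x₁, hx₁⟩ := exists_smul_eq_of_card ℓ r hℓ hcard a (c • y) (by rw [← mul_smul]; exact hNy)
  have hcop : IsCoprime (ℓ : ℤ) (c : ℤ) :=
    Nat.isCoprime_iff_coprime.2 ((Nat.Prime.coprime_iff_not_dvd hℓ).2 hc)
  obtain ⟨u, w, huw⟩ := hcop
  refine ⟨u • y + w • x₁, ?_⟩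
  have h1 : y = (u * (ℓ : ℤ) + w * (c : ℤ)) • y := by rw [huw, one_smul]
  conv_rhs => rw [h1]
  rw [add_smul, mul_smul, mul_smul, natCast_zsmul, natCast_zsmul, ← hx₁, smul_add,
    smul_comm ℓ u y, smul_comm ℓ w x₁]

end Fermat.Agent.S19.DIV
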