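import Fermat.Agent.S19.DIV.Defs
import Fermat.Agent.S27.E.Main

/-!
# S19, block DIV: dictionary for `IsPowOf`

Copy-adapt `S27/E/TorsEquiv.lean` (`tors_iff`, `equiv_iff`).
-/

set_option autoImplicit false

namespace Fermat.Agent.S19.DIV

open Fermat.Agent.S27 Fermat.Agent.S27.E AlgebraicCurve

universe u v

variable {s : Shape} {k : Type u} [Field k] {R : Type v} [CommRing R] [Algebra k R]
  [IsDedekindDomain R] (A : AlgModel s k R) {d N : ℕ}

/-- `→`: `idl p = I₁^n` (`powLE_iff`, `eq_pow_of_le_of_codim`, `codim_idl`), `idl t₁ = I J`,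
`idl t₂ = I₁^n J` (`mulLE_iff`, `eq_mul_of_le_of_codim`) are principal (`princ_iff`), so
`cls I * cls J = 1 = cls I₁ ^ n * cls J` (`cls_mul`, `cls_pow`, `cls_eq_one_iff`).
`←`: `J` of codimension `2 g` in the class `(cls I)⁻¹` (`exists_cls_eq`), `exists_rep` for `I₁^n`, `J`,
`I J`, `I₁^n J` (`codim_mul`, `codim_pow`). -/
theorem isPowOf_iff (hA : A.RhoMul) {r r₁ : Rep s k d} (hr : r.IsRep A.c N)
    (hr₁ : r₁.IsRep A.c N) (n : ℕ)
    (hN : 2 * max (max (n * d) d) (2 * s.genus) + 4 * s.genus < N) :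
    IsPowOf A.c N n r r₁ ↔ A.cls (A.idl r₁) ^ n = A.cls (A.idl r) := by
  have hI := A.idl_ne_bot hr
  have hI₁ := A.idl_ne_bot hr₁
  have hI₁n : A.idl r₁ ^ n ≠ ⊥ := pow_ne_zero n hI₁
  have hm1 : n * d ≤ max (max (n * d) d) (2 * s.genus) :=
    (le_max_left _ _).trans (le_max_left _ _)
  have hm2 : d ≤ max (max (n * d) d) (2 * s.genus) :=
    (le_max_right _ _).trans (le_max_left _ _)
  have hm3 : 2 * s.genus ≤ max (max (n * d) d) (2 * s.genus) := le_max_right _ _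
  have hx1 : max d (2 * s.genus) ≤ max (max (n * d) d) (2 * s.genus) := max_le hm2 hm3
  have hx2 : max (n * d) (2 * s.genus) ≤ max (max (n * d) d) (2 * s.genus) := max_le hm1 hm3
  constructor
  · rintro ⟨p, r', t₁, t₂, hp, hr', ht₁, ht₂, hpow, hmul₁, hp₁, hmul₂, hp₂⟩
    have hJ := A.idl_ne_bot hr'
    have hP := A.idl_ne_bot hp
    have h1 := (A.powLE_iff hA hr₁ hp n (by omega)).1 hpow
    have h2 := A.eq_pow_of_le_of_codim hA hI₁ n h1 (by rw [A.codim_idl hp, A.codim_idl hr₁])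
    have e₁ : A.cls (A.idl r) * A.cls (A.idl r') = 1 := by
      have h3 := (A.mulLE_iff hA hr hr' ht₁ (by omega)).1 hmul₁
      have h4 := A.eq_mul_of_le_of_codim hA hI hJ h3
        (by rw [A.codim_idl ht₁, A.codim_idl hr, A.codim_idl hr'])
      rw [← A.cls_mul hI hJ, A.cls_eq_one_iff (mul_ne_zero hI hJ), ← h4]
      exact (A.princ_iff hA ht₁ (by omega)).1 hp₁
    have e₂ : A.cls (A.idl p) * A.cls (A.idl r') = 1 := by
      have h3 := (A.mulLE_iff hA hp hr' ht₂ (by omega)).1 hmul₂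
      have h4 := A.eq_mul_of_le_of_codim hA hP hJ h3
        (by rw [A.codim_idl ht₂, A.codim_idl hp, A.codim_idl hr'])
      rw [← A.cls_mul hP hJ, A.cls_eq_one_iff (mul_ne_zero hP hJ), ← h4]
      exact (A.princ_iff hA ht₂ (by omega)).1 hp₂
    rw [← A.cls_pow hI₁, ← h2]
    exact mul_right_cancel (e₂.trans e₁.symm)
  · intro he
    obtain ⟨J, hJ, hJc, hJcls⟩ := A.exists_cls_eq hA (A.cls (A.idl r))⁻¹
    obtain ⟨r', hr', hr'J⟩ := A.exists_rep (d := 2 * s.genus) (N := N) hA hJ hJc (by omega)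
    obtain ⟨p, hp, hpI⟩ := A.exists_rep (d := n * d) (N := N) hA hI₁n
      (by rw [A.codim_pow hA hI₁, A.codim_idl hr₁]) (by omega)
    obtain ⟨t₁, ht₁, ht₁I⟩ := A.exists_rep (d := d + 2 * s.genus) (N := N) hA (mul_ne_zero hI hJ)
      (by rw [A.codim_mul hA hI hJ, A.codim_idl hr, hJc]) (by omega)
    obtain ⟨t₂, ht₂, ht₂I⟩ := A.exists_rep (d := n * d + 2 * s.genus) (N := N) hA
      (mul_ne_zero hI₁n hJ)
      (by rw [A.codim_mul hA hI₁n hJ, A.codim_pow hA hI₁, A.codim_idl hr₁, hJc]) (by omega)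
    refine ⟨p, r', t₁, t₂, hp, hr', ht₁, ht₂, (A.powLE_iff hA hr₁ hp n (by omega)).2 hpI.ge,
      (A.mulLE_iff hA hr hr' ht₁ (by omega)).2 (by rw [ht₁I, hr'J]), ?_,
      (A.mulLE_iff hA hp hr' ht₂ (by omega)).2 (by rw [ht₂I, hr'J, hpI]), ?_⟩
    · rw [A.princ_iff hA ht₁ (by omega), ht₁I, ← A.cls_eq_one_iff (mul_ne_zero hI hJ),
        A.cls_mul hI hJ, hJcls, mul_inv_cancel]
    · rw [A.princ_iff hA ht₂ (by omega), ht₂I, ← A.cls_eq_one_iff (mul_ne_zero hI₁n hJ),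
        A.cls_mul hI₁n hJ, A.cls_pow hI₁, hJcls, he, mul_inv_cancel]

end Fermat.Agent.S19.DIV
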